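import Mathlib

/-!
# S33 / Inst / Finite (leaf I1) : a complete DVR of mixed characteristic with finite residue field is finite over `ℤ_p`
-/

set_option autoImplicit false

namespace Fermat.Agent.S33.Inst

variable {p : ℕ} [Fact p.Prime]

theorem Finite_isPrecomplete_pi {R : Type*} [CommRing R] (I : Ideal R) [IsPrecomplete I R]
    (n : ℕ) : IsPrecomplete I (Fin n → R) := by
  have hmem : ∀ (m : ℕ) (x : Fin n → R), x ∈ (I ^ m • ⊤ : Submodule R (Fin n → R)) ↔
      ∀ i, x i ∈ (I ^ m • ⊤ : Submodule R R) := by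
    intro m x
    constructor
    · intro hx i
      have h1 := Submodule.mem_map_of_mem (f := (LinearMap.proj i : (Fin n → R) →ₗ[R] R)) hx
      rw [Submodule.map_smul''] at h1
      exact Submodule.smul_mono le_rfl le_top h1
    · intro hx
      rw [← Finset.univ_sum_single x]
      refine Submodule.sum_mem _ fun i _ => ?_
      have h1 : x i ∈ I ^ m := by simpa using hx i
      have h2 : (Pi.single i (x i) : Fin n → R) = x i • Pi.single i 1 := by
        rw [← Pi.single_smul, smul_eq_mul, mul_one]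
      rw [h2]
      exact Submodule.smul_mem_smul h1 trivial
  constructor
  intro f hf
  have hcoord : ∀ i, ∃ L : R, ∀ m, f m i ≡ L [SMOD (I ^ m • ⊤ : Submodule R R)] := by
    intro i
    apply IsPrecomplete.prec' (fun m => f m i)
    intro a b hab
    have h1 := hf hab
    rw [SModEq.sub_mem] at h1 ⊢
    exact (hmem a _).1 h1 i
  choose L hL using hcoord
  refine ⟨L, fun m => ?_⟩
  rw [SModEq.sub_mem, hmem]
  intro i
  exact (SModEq.sub_mem).1 (hL i m)

/-- **I1.**  PROOF.  Put `I := Ideal.span {(p : ℤ_[p])}`.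
1. `(p : 𝒪) ≠ 0` (`CharZero`), so `Ideal.span {(p : 𝒪)} = 𝔪 ^ e` for some `e`
   (`IsDiscreteValuationRing.ideal_eq_span_pow_irreducible` / `exists_maximalIdeal_pow_eq_of_principal`).
2. `𝒪 ⧸ 𝔪 ^ e` is finite (`Ideal.finite_quotient_pow`, `𝔪` is f.g. and `𝒪 ⧸ 𝔪 = ResidueField 𝒪` is finite).  Hence
   `𝒪 ⧸ (I • ⊤ : Submodule ℤ_[p] 𝒪)` is finite (`I • ⊤` has the same carrier as `span {(p : 𝒪)}`:
   `Ideal.smul_top_eq_map`, `Ideal.map_span`, `map_natCast`).
3. Choose `x : Fin n → 𝒪` whose classes exhaust the quotient (`Finite.exists_equiv_fin`, `Submodule.mkQ_surjective`), and let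
   `f : (Fin n → ℤ_[p]) →ₗ[ℤ_[p]] 𝒪 := Fintype.linearCombination ℤ_[p] x`.  Then `mkQ (I • ⊤) ∘ₗ f` is surjective
   (`f (Pi.single i 1) = x i`).
4. `surjective_of_mkQ_comp_surjective` (Mathlib.RingTheory.AdicCompletion.Functoriality) needs
   `IsPrecomplete I (Fin n → ℤ_[p])` (from `IsAdicComplete I ℤ_[p]`: look for `PadicInt.isAdicComplete`; for the finite product
   look for an instance for `Pi`, or prove precompleteness coordinatewise) and `IsHausdorff I 𝒪`
   (`x ∈ I ^ n • ⊤ ⊆ 𝔪 ^ n` for all `n` gives `x = 0` by `IsHausdorff 𝔪 𝒪`, part of `IsAdicComplete`).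
5. `Module.Finite.of_surjective f`. -/
theorem module_finite_padicInt {𝒪 : Type} [CommRing 𝒪] [IsDomain 𝒪] [IsDiscreteValuationRing 𝒪]
    [IsAdicComplete (IsLocalRing.maximalIdeal 𝒪) 𝒪] [Finite (IsLocalRing.ResidueField 𝒪)] [CharZero 𝒪]
    [Algebra ℤ_[p] 𝒪] (hp𝒪 : (p : 𝒪) ∈ IsLocalRing.maximalIdeal 𝒪) : Module.Finite ℤ_[p] 𝒪 := by
  have hIp : IsLocalRing.maximalIdeal ℤ_[p] = Ideal.span {(p : ℤ_[p])} :=
    PadicInt.maximalIdeal_eq_span_p
  have hmap : (IsLocalRing.maximalIdeal ℤ_[p]).map (algebraMap ℤ_[p] 𝒪) =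
      Ideal.span {(p : 𝒪)} := by
    rw [hIp, Ideal.map_span, Set.image_singleton, map_natCast]
  have hp0 : (p : 𝒪) ≠ 0 := Nat.cast_ne_zero.2 (Fact.out : p.Prime).ne_zero
  obtain ⟨ϖ, hϖ⟩ := IsDiscreteValuationRing.exists_irreducible 𝒪
  obtain ⟨e, he⟩ := IsDiscreteValuationRing.ideal_eq_span_pow_irreducible
    (s := Ideal.span {(p : 𝒪)}) (by simpa using hp0) hϖ
  have h𝔪 : IsLocalRing.maximalIdeal 𝒪 = Ideal.span {ϖ} := hϖ.maximalIdeal_eq
  have he' : Ideal.span {(p : 𝒪)} = IsLocalRing.maximalIdeal 𝒪 ^ e := by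
    rw [he, h𝔪, Ideal.span_singleton_pow]
  have hfinq : Finite (𝒪 ⧸ IsLocalRing.maximalIdeal 𝒪 ^ e) := by
    have : Finite (𝒪 ⧸ IsLocalRing.maximalIdeal 𝒪) := ‹Finite (IsLocalRing.ResidueField 𝒪)›
    exact Ideal.finite_quotient_pow (IsNoetherian.noetherian _) e
  have hsub : (IsLocalRing.maximalIdeal ℤ_[p] • ⊤ : Submodule ℤ_[p] 𝒪) =
      Submodule.restrictScalars ℤ_[p] (IsLocalRing.maximalIdeal 𝒪 ^ e) := by
    rw [Ideal.smul_top_eq_map, hmap, he']
  have hfin : Finite (𝒪 ⧸ (IsLocalRing.maximalIdeal ℤ_[p] • ⊤ : Submodule ℤ_[p] 𝒪)) := by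
    rw [hsub]
    exact Finite.of_equiv _
      (Submodule.Quotient.restrictScalarsEquiv ℤ_[p] (IsLocalRing.maximalIdeal 𝒪 ^ e)).symm.toEquiv
  obtain ⟨n, ⟨eqv⟩⟩ :=
    Finite.exists_equiv_fin (𝒪 ⧸ (IsLocalRing.maximalIdeal ℤ_[p] • ⊤ : Submodule ℤ_[p] 𝒪))
  choose x hx using fun i : Fin n => Submodule.mkQ_surjective _ (eqv.symm i)
  let f : (Fin n → ℤ_[p]) →ₗ[ℤ_[p]] 𝒪 := Fintype.linearCombination ℤ_[p] x
  have hsurj : Function.Surjective
      ((IsLocalRing.maximalIdeal ℤ_[p] • ⊤ : Submodule ℤ_[p] 𝒪).mkQ ∘ₗ f) := by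
    intro y
    refine ⟨Pi.single (eqv y) 1, ?_⟩
    rw [LinearMap.comp_apply]
    have h1 : f (Pi.single (eqv y) 1) = x (eqv y) := by
      simp [f, Fintype.linearCombination_apply_single]
    rw [h1, hx, Equiv.symm_apply_apply]
  have hprec : IsPrecomplete (IsLocalRing.maximalIdeal ℤ_[p]) (Fin n → ℤ_[p]) :=
    Finite_isPrecomplete_pi _ n
  have hhaus : IsHausdorff (IsLocalRing.maximalIdeal ℤ_[p]) 𝒪 := by
    constructor
    intro x hx
    have hH : IsHausdorff (IsLocalRing.maximalIdeal 𝒪) 𝒪 := inferInstance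
    apply hH.haus' x
    intro n
    have h1 := hx n
    rw [SModEq.zero] at h1 ⊢
    rw [Ideal.smul_top_eq_map, Ideal.map_pow, hmap] at h1
    have hle : Ideal.span {(p : 𝒪)} ≤ IsLocalRing.maximalIdeal 𝒪 :=
      (Ideal.span_singleton_le_iff_mem _).2 hp𝒪
    have h2 : x ∈ IsLocalRing.maximalIdeal 𝒪 ^ n := Ideal.pow_right_mono hle n h1
    simpa using h2
  exact Module.Finite.of_surjective f (surjective_of_mkQ_comp_surjective hsurj)

/-- A ring homomorphism from `ℤ_p` to a local ring in which `p` is not a unit is local: if `a` is not a unit then `p ∣ a`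
(`PadicInt.maximalIdeal_eq_span_p`, `IsLocalRing.mem_maximalIdeal`, `Ideal.mem_span_singleton`), so `f a = p * f b` lies in the
maximal ideal. -/
theorem isLocalHom_padicInt {R : Type*} [CommRing R] [IsLocalRing R] (f : ℤ_[p] →+* R)
    (hp : (p : R) ∈ IsLocalRing.maximalIdeal R) : IsLocalHom f := by
  constructor
  intro a ha
  by_contra hna
  have h1 : a ∈ IsLocalRing.maximalIdeal ℤ_[p] := (IsLocalRing.mem_maximalIdeal a).2 hna
  rw [PadicInt.maximalIdeal_eq_span_p, Ideal.mem_span_singleton] at h1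
  obtain ⟨b, rfl⟩ := h1
  rw [map_mul, map_natCast] at ha
  exact (IsLocalRing.mem_maximalIdeal _).1 (Ideal.mul_mem_right _ _ hp) ha

end Fermat.Agent.S33.Inst
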