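import Fermat.Agent.S33.Inst.Max

/-!
# S33 / Inst / NE (leaf I6) : `mI A` is not Eisenstein
-/

set_option autoImplicit false

namespace Fermat.Agent.S33.Inst

open Fermat.Agent.GAL Fermat.Agent.S32 Fermat.Agent.S33.Alg
open scoped TensorProduct

variable {p : ℕ} [Fact p.Prime] {T : Type} [CommRing T] [IsLocalRing T] [Algebra ℤ_[p] T]
  [Module.Finite ℤ_[p] T] [IsLocalHom (algebraMap ℤ_[p] T)] (A : AlgDatum ℤ_[p] T)

/-- PROOF.  By contradiction: `mk (tr g) = ψ g + mk (eps g) * ψ g⁻¹` for all `g`.  Apply `jHom A` (`jHom_mk`, `piHom_tr`):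
`residue (trace (ρ g)) = F g`, `F g := jHom (ψ g) + jHom (mk (eps g)) * jHom (ψ g⁻¹)`, and `F (g * h * k) = F (h * g * k)`
(`map_mul`, `mul_inv_rev`, commutativity of the targets).  Let `b := Module.finBasisOfFinrankEq T A.ρ.V A.ρ.finrank_eq`,
`R := A.R b`; `(R g).trace = trace (ρ g)` (`LinearMap.trace_eq_matrix_trace T b`).  So
`residue ((R g * R h * R k).trace) = residue ((R h * R g * R k).trace)`; as `Submodule.span T (Set.range R) = ⊤`
(`GAL.S31.span_toMatrix_eq_top A.ρ A.ρ_absIrr b`), three `Submodule.span_induction`s (copy `hk1 hk2 hk3` in the proof of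
`S32.Formal_trace_zero`, file `S32/Alg/Formal.lean`, with `residue (·)` instead of `y * ·`) give
`residue ((X * Y * Z).trace) = residue ((Y * X * Z).trace)` for all matrices; `X = single 0 1 1`, `Y = single 1 0 1`,
`Z = single 0 0 1` gives `residue 1 = residue 0`: contradiction. -/
theorem hyp_nE (hFD : FrobeniusDensity) (ψ : GQ →* A.HT ⧸ mI A) :
    ∃ g, Ideal.Quotient.mk (mI A) (tr A hFD g) ≠
      ψ g + Ideal.Quotient.mk (mI A) (eps A g) * ψ g⁻¹ := by
  by_contra hcon
  push Not at hcon
  set res := IsLocalRing.residue T with hres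
  set F : GQ → IsLocalRing.ResidueField T := fun g =>
    jHom A (ψ g) + jHom A (Ideal.Quotient.mk (mI A) (eps A g)) * jHom A (ψ g⁻¹) with hFdef
  have hF : ∀ g, res (LinearMap.trace T A.ρ.V (A.ρ.ρ g)) = F g := by
    intro g
    have h1 := congrArg (jHom A) (hcon g)
    rw [jHom_mk, piHom_tr, map_add, map_mul] at h1
    exact h1
  have hFc : ∀ g h k, F (g * h * k) = F (h * g * k) := by
    intro g h k
    simp only [hFdef, map_mul, mul_inv_rev]
    ring
  set b := Module.finBasisOfFinrankEq T A.ρ.V A.ρ.finrank_eq with hb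
  set R := A.R b with hR
  have htr : ∀ g, (R g).trace = LinearMap.trace T A.ρ.V (A.ρ.ρ g) := by
    intro g
    rw [LinearMap.trace_eq_matrix_trace T b]
    rfl
  have hk : ∀ g h k : GQ, res (R g * R h * R k).trace = res (R h * R g * R k).trace := by
    intro g h k
    rw [← map_mul, ← map_mul, ← map_mul, ← map_mul, htr, htr, hF, hF, hFc]
  have hspan : Submodule.span T (Set.range R) = ⊤ :=
    GAL.S31.span_toMatrix_eq_top A.ρ A.ρ_absIrr b
  have hmem : ∀ X : Matrix (Fin 2) (Fin 2) T, X ∈ Submodule.span T (Set.range R) := by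
    intro X; rw [hspan]; trivial
  have hk1 : ∀ (X : Matrix (Fin 2) (Fin 2) T) (h k : GQ),
      res (X * R h * R k).trace = res (R h * X * R k).trace := by
    intro X h k
    induction hmem X using Submodule.span_induction with
    | mem x hx => obtain ⟨g, rfl⟩ := hx; exact hk g h k
    | zero => simp
    | add x x' _ _ hx hx' =>
      simp only [add_mul, mul_add, Matrix.trace_add, map_add, hx, hx']
    | smul a x _ hx =>
      simp only [Matrix.smul_mul, Matrix.mul_smul, Matrix.trace_smul, smul_eq_mul, map_mul, hx]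
  have hk2 : ∀ (X Y : Matrix (Fin 2) (Fin 2) T) (k : GQ),
      res (X * Y * R k).trace = res (Y * X * R k).trace := by
    intro X Y k
    induction hmem Y using Submodule.span_induction with
    | mem x hx => obtain ⟨g, rfl⟩ := hx; exact hk1 X g k
    | zero => simp
    | add x x' _ _ hx hx' =>
      simp only [add_mul, mul_add, Matrix.trace_add, map_add, hx, hx']
    | smul a x _ hx =>
      simp only [Matrix.smul_mul, Matrix.mul_smul, Matrix.trace_smul, smul_eq_mul, map_mul, hx]
  have hk3 : ∀ (X Y Z : Matrix (Fin 2) (Fin 2) T),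
      res (X * Y * Z).trace = res (Y * X * Z).trace := by
    intro X Y Z
    induction hmem Z using Submodule.span_induction with
    | mem x hx => obtain ⟨g, rfl⟩ := hx; exact hk2 X Y g
    | zero => simp
    | add x x' _ _ hx hx' =>
      simp only [mul_add, Matrix.trace_add, map_add, hx, hx']
    | smul a x _ hx =>
      simp only [Matrix.mul_smul, Matrix.trace_smul, smul_eq_mul, map_mul, hx]
  have hfin := hk3 (Matrix.single 0 1 1) (Matrix.single 1 0 1) (Matrix.single 0 0 1)
  simp [Matrix.single_mul_single_same, Matrix.trace_single_eq_same] at hfin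

end Fermat.Agent.S33.Inst
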