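import Fermat.Agent.S33.Inst.Defs

/-!
# S33 / Inst / OrdRes (leaf I4) : `t(τ) ≡ 1 + ε(τ)` on inertia, from the ordinarity of the residual representation
-/

set_option autoImplicit false

namespace Fermat.Agent.S33.Inst

open Fermat.Agent.GAL Fermat.Agent.S32 Fermat.Agent.S33.Alg
open scoped TensorProduct

/-- Linear algebra: if `f v - v ∈ k ∙ b 0` for all `v` then `tr f = 1 + det f`.
(`f (b 0) = (1 + α) • b 0`, `f (b 1) = b 1 + β • b 0`; `LinearMap.trace_eq_matrix_trace k b`, `LinearMap.det_toMatrix b`,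
`Matrix.trace_fin_two`, `Matrix.det_fin_two`, `LinearMap.toMatrix_apply`.) -/
theorem trace_eq_one_add_det {k V : Type*} [CommRing k] [AddCommGroup V] [Module k V]
    (b : Module.Basis (Fin 2) k V) (f : Module.End k V) (hf : ∀ v, f v - v ∈ Submodule.span k {b 0}) :
    LinearMap.trace k V f = 1 + LinearMap.det f := by
  obtain ⟨α, hα⟩ := Submodule.mem_span_singleton.1 (hf (b 0))
  obtain ⟨β, hβ⟩ := Submodule.mem_span_singleton.1 (hf (b 1))
  have h0 : f (b 0) = (1 + α) • b 0 := by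
    rw [add_smul, one_smul, hα]
    abel
  have h1 : f (b 1) = b 1 + β • b 0 := by
    rw [hβ]
    abel
  rw [LinearMap.trace_eq_matrix_trace k b, ← LinearMap.det_toMatrix b, Matrix.trace_fin_two,
    Matrix.det_fin_two]
  simp only [LinearMap.toMatrix_apply, h0, h1, map_add, map_smul, Module.Basis.repr_self]
  simp [Finsupp.single_apply]
  ring

variable {p : ℕ} [Fact p.Prime] {T : Type} [CommRing T] [IsLocalRing T] [Algebra ℤ_[p] T]
  [Module.Finite ℤ_[p] T] [IsLocalHom (algebraMap ℤ_[p] T)] (A : AlgDatum ℤ_[p] T)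

/-- `mem_mI_iff`, `map_sub`, `map_one`, `piHom_tr`, `piHom_eps`, `← Alg.det_eq hFD A τ`; then
`← IsLocalRing.residue_eq_zero_iff`.  `(A.ρ.residual).ρ τ = (A.ρ.ρ τ).baseChange (ResidueField T)` (by `rfl`),
`LinearMap.trace_baseChange`, `LinearMap.det_baseChange` (`algebraMap T (ResidueField T) = residue T`:
`IsLocalRing.ResidueField.algebraMap_eq`) and `trace_eq_one_add_det` for the basis and the line given by `hres P hP`. -/
theorem hyp_ord (hFD : FrobeniusDensity) (P : ValuationSubring (AlgebraicClosure ℚ))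
    (hP : P.LiesOverPrime p)
    (hres : (GaloisRepAdic.ofResidualGaloisRep A.ρ.residual).IsOrdinaryAt p) (τ : GQ)
    (hτ : τ ∈ P.inertiaSubgroupIn ℚ) : tr A hFD τ - 1 - eps A τ ∈ mI A := by
  rw [mem_mI_iff, map_sub, map_sub, map_one, piHom_tr, piHom_eps, ← Alg.det_eq hFD A τ,
    ← IsLocalRing.residue_eq_zero_iff]
  obtain ⟨L, ⟨b, hL⟩, -, hI⟩ := hres P hP
  have h1 := trace_eq_one_add_det b ((A.ρ.residual).ρ τ) (fun v => by
    rw [← hL]
    exact hI τ hτ v)
  have h2 : (A.ρ.residual).ρ τ = (A.ρ.ρ τ).baseChange (IsLocalRing.ResidueField T) := rfl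
  rw [h2] at h1
  erw [LinearMap.trace_baseChange, LinearMap.det_baseChange] at h1
  rw [IsLocalRing.ResidueField.algebraMap_eq] at h1
  rw [map_sub, map_sub, map_one, h1]
  ring

end Fermat.Agent.S33.Inst
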