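import Fermat.Agent.S33.Inst.Defs

/-!
# S33 / Inst / Aug (leaf I7) : `(I - 1) C` as a `𝕋`-submodule and as a subgroup
-/

set_option autoImplicit false

namespace Fermat.Agent.S33.Inst

open Fermat.Agent.GAL Fermat.Agent.S32 Fermat.Agent.S33.Alg
open scoped TensorProduct

variable {p : ℕ} [Fact p.Prime] {T : Type} [CommRing T] [IsLocalRing T] [Algebra ℤ_[p] T]
  (A : AlgDatum ℤ_[p] T) (K : ℕ)

/-- **I7.**  `(I - 1) C` as a `𝕋`-submodule and as a subgroup.
`⊇`: `AddSubgroup.closure_le`, `sub_mem_aug`.  `⊆`: `Submodule.span_induction`; for `smul s y` do an inner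
`AddSubgroup.closure_induction` on `y ∈ augG I C`: `s • (τ • x - x) = τ • (s • x) - s • x` (`smul_sub`, `smul_comm_gal`),
`s • x ∈ C`. -/
theorem mem_aug_iff (I : Subgroup GQ) (C : Submodule A.HT (ModRep A.AO K)) (y : ModRep A.AO K) :
    y ∈ aug (rho A K) I C ↔ y ∈ augG I C.toAddSubgroup := by
  constructor
  · intro hy
    induction hy using Submodule.span_induction with
    | mem y hy =>
      obtain ⟨τ, hτ, x, hx, rfl⟩ := hy
      exact AddSubgroup.subset_closure ⟨τ, hτ, x, hx, rfl⟩
    | zero => exact zero_mem _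
    | add y y' _ _ ih ih' => exact add_mem ih ih'
    | smul s y hy ih =>
      clear hy
      induction ih using AddSubgroup.closure_induction with
      | mem y hy =>
        obtain ⟨τ, hτ, x, hx, rfl⟩ := hy
        refine AddSubgroup.subset_closure ⟨τ, hτ, s • x, C.smul_mem s hx, ?_⟩
        rw [smul_sub, smul_comm_gal]
      | zero => rw [smul_zero]; exact zero_mem _
      | add y y' _ _ ih ih' => rw [smul_add]; exact add_mem ih ih'
      | neg y _ ih => rw [smul_neg]; exact neg_mem ih
  · intro hy
    have hle : augG I C.toAddSubgroup ≤ (aug (rho A K) I C).toAddSubgroup := by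
      rw [augG, AddSubgroup.closure_le]
      rintro _ ⟨τ, hτ, x, hx, rfl⟩
      exact sub_mem_aug (rho A K) hτ hx
    exact hle hy

end Fermat.Agent.S33.Inst
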