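import Fermat.Agent.S33.Inst.Defs

/-!
# S33 / Inst / CH (leaf I3) : the Cayley--Hamilton (Eichler--Shimura) relation on `W_K`
-/

set_option autoImplicit false

namespace Fermat.Agent.S33.Inst

open Fermat.Agent.GAL Fermat.Agent.S32 Fermat.Agent.S33.Alg
open scoped TensorProduct

variable {p : ℕ} [Fact p.Prime] {T : Type} [CommRing T] [IsLocalRing T] [Algebra ℤ_[p] T]
  [Module.Finite ℤ_[p] T] [IsLocalHom (algebraMap ℤ_[p] T)] (A : AlgDatum ℤ_[p] T) (K : ℕ)

/-- Write `x = ModRep.of A.AO K y` (`(ModRep.of A.AO K).surjective`), use `rho_apply`, `gal_smul_of`, `smul_of`, `eps_apply`,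
`actK_algebraMap`; `actK A K (tr A hFD g) = galK A K g + toZModPow K (ε g) • galK A K g⁻¹` by applying
`(PadicInt.toZModPow K).mapMatrix` to `alphaHom_tr` (entrywise: `ext i j; simp`). -/
theorem hyp_CH (hFD : FrobeniusDensity) (g : GQ) (x : ModRep A.AO K) :
    rho A K g x + eps A g • rho A K g⁻¹ x = tr A hFD g • x := by
  obtain ⟨y, rfl⟩ := (ModRep.of A.AO K).surjective x
  have key : actK A K (tr A hFD g) =
      galK A K g + PadicInt.toZModPow K ((A.ε g : ℤ_[p]ˣ) : ℤ_[p]) • galK A K g⁻¹ := by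
    rw [actK_apply, alphaHom_tr, map_add, galK_apply, galK_apply]
    congr 1
    ext i j
    simp
  rw [rho_apply, rho_apply, gal_smul_of, gal_smul_of, smul_of, smul_of, eps_apply,
    actK_algebraMap, ← map_add, key, Matrix.add_mulVec, Matrix.smul_mulVec, Matrix.smul_mulVec,
    Matrix.one_mulVec]

end Fermat.Agent.S33.Inst
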