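import Fermat.Agent.S33.Inst.Main
import Fermat.Agent.S33.Inst.Finite
import Fermat.Agent.S33.Alg.HeckeCorr
import Fermat.Agent.S32.OfES
import Fermat.Agent.S32.Bridge
import Fermat.Agent.GAL.ALG.PadicMap
import Fermat.Agent.GAL.ALG.CycloFrob

/-!
# S33 / Inst / Datum : the `ℤ_p`-datum attached to an Eichler--Shimura datum and a Hecke--Galois datum; the final statement of INST
-/

set_option autoImplicit false

namespace Fermat.Agent.S33.Inst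

open Fermat.Agent.GAL Fermat.Agent.S32 Fermat.Agent.S33.Alg CuspForm
open scoped TensorProduct

variable {p N M : ℕ} [NeZero N] [Fact p.Prime] {S : Finset ℕ}
  {𝒪 : Type} [CommRing 𝒪] [IsDomain 𝒪] [IsDiscreteValuationRing 𝒪]
  [IsAdicComplete (IsLocalRing.maximalIdeal 𝒪) 𝒪]
  {θ : CuspForm.heckeAlgebra N 2 (↑S : Set ℕ) →+* IsLocalRing.ResidueField 𝒪}
  {T : Type} [CommRing T] [IsLocalRing T] [IsNoetherianRing T]
  [IsAdicComplete (IsLocalRing.maximalIdeal T) T] [Algebra 𝒪 T] [IsLocalHom (algebraMap 𝒪 T)]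
  [Module.Finite 𝒪 T] [Module.Free 𝒪 T]

/-- The abstract datum over `ℤ_p`. -/
noncomputable def algDatumZp [Algebra ℤ_[p] T] (D : ESDatumAt N M p) (hM : M ≠ 0) (hpS : p ∈ S)
    (hNS : ∀ q : ℕ, q.Prime → q ∣ N → q ∈ S)
    (H : CuspForm.HeckeGaloisRepDatum N (↑S : Set ℕ) 𝒪 θ T)
    {C : Type} [CommRing C]
    (Φ : C →+* Matrix (Fin D.r) (Fin D.r) ℤ) (Ψ : C →+* CuspForm.heckeAlgebra N 2 (↑S : Set ℕ))
    (hΦ : Function.Injective Φ)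
    (hcomm : ∀ (x : C) (σ : GQ), D.ρ σ * (Φ x).map (Int.castRingHom ℤ_[p]) =
        (Φ x).map (Int.castRingHom ℤ_[p]) * D.ρ σ)
    (hX : ∀ (ℓ : ℕ) (hℓ : ℓ.Prime) (hℓN : ¬ ℓ ∣ N) (hℓS : ℓ ∉ (↑S : Set ℕ)), ¬ ℓ ∣ M →
        ∃ x : C, Φ x = D.T ℓ ∧ Ψ x = CuspForm.heckeAlgebra.T hℓ hℓN hℓS) : AlgDatum ℤ_[p] T where
  r := D.r
  C := C
  Φ := Φ
  Φ_inj := hΦ
  ψ := H.π.comp Ψ
  AO := D.ρ
  AO_comm := fun c σ => (hcomm c σ).symm
  AO_cont := fun n => by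
    obtain ⟨F, hF, h⟩ := D.ρ_cont n
    refine ⟨F, hF, fun σ hσ i j => ?_⟩
    rw [PadicInt.maximalIdeal_eq_span_p, Ideal.span_singleton_pow, Ideal.mem_span_singleton]
    exact h σ hσ i j
  ε := cyclo p
  ε_cont := fun n => by
    obtain ⟨F, hF, h⟩ := cyclo_cont p n
    refine ⟨F, hF, fun σ hσ => ?_⟩
    rw [PadicInt.maximalIdeal_eq_span_p, Ideal.span_singleton_pow, Ideal.mem_span_singleton]
    exact h σ hσ
  B := S ∪ M.primeFactors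
  X := esX D Φ Ψ hX
  ε_frob := fun ℓ hℓ hℓB A hA σ hσ =>
    cyclo_frobenius p hℓ (es_not_dvd hM hpS hNS hℓ hℓB).2.2.2.2 A hA σ hσ
  AO_ES := fun ℓ hℓ hℓB A hA σ hσ => by
    obtain ⟨h1, h2, h3, h4, _⟩ := es_not_dvd hM hpS hNS hℓ hℓB
    rw [(esX_spec D Φ Ψ hX hℓ h1 h2 h3).1]
    exact D.ρ_ES ℓ hℓ h4 A hA σ hσ
  ρ := H.ρ
  ρ_char := fun ℓ hℓ hℓB A hA σ hσ => by
    obtain ⟨h1, h2, h3, _, _⟩ := es_not_dvd hM hpS hNS hℓ hℓB
    rw [H.charpoly_frob ℓ hℓ h1 h2 A hA σ hσ, RingHom.comp_apply, (esX_spec D Φ Ψ hX hℓ h1 h2 h3).2]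
  ρ_absIrr := H.residual_absIrr

/-- **INST, final form**: ordinarity at `p` from the finite levels of an Eichler--Shimura datum. -/
theorem isOrdinaryAt_of_ordLevel (hFD : FrobeniusDensity) (hFO : FOStatement) (D : ESDatumAt N M p)
    (hM : M ≠ 0) (hp2 : p ≠ 2)
    (hlev : ∀ P : ValuationSubring (AlgebraicClosure ℚ), P.LiesOverPrime p → ∀ K : ℕ, OrdLevel D K P)
    [Finite (IsLocalRing.ResidueField 𝒪)] [CharZero 𝒪]
    (hp𝒪 : (p : 𝒪) ∈ IsLocalRing.maximalIdeal 𝒪) (hpS : p ∈ S)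
    (hNS : ∀ q : ℕ, q.Prime → q ∣ N → q ∈ S)
    (H : CuspForm.HeckeGaloisRepDatum N (↑S : Set ℕ) 𝒪 θ T)
    (hres : (GaloisRepAdic.ofResidualGaloisRep H.ρ.residual).IsOrdinaryAt p) :
    H.ρ.IsOrdinaryAt p := by
  obtain ⟨ι⟩ := exists_padicInt_ringHom p 𝒪 hp𝒪
  let _ : Algebra ℤ_[p] 𝒪 := ι.toAlgebra
  let _ : Algebra ℤ_[p] T := ((algebraMap 𝒪 T).comp ι).toAlgebra
  have : IsScalarTower ℤ_[p] 𝒪 T := IsScalarTower.of_algebraMap_eq (fun _ => rfl)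
  have : Module.Finite ℤ_[p] 𝒪 := module_finite_padicInt hp𝒪
  have : Module.Finite ℤ_[p] T := Module.Finite.trans 𝒪 T
  have hpT : (p : T) ∈ IsLocalRing.maximalIdeal T := by
    have := map_nonunit (algebraMap 𝒪 T) (p : 𝒪) hp𝒪
    rwa [map_natCast] at this
  have : IsLocalHom (algebraMap ℤ_[p] T) := isLocalHom_padicInt _ hpT
  have : Finite (IsLocalRing.ResidueField T) := finite_residueField_of_surjective H.residue_surjective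
  obtain ⟨C, _, Φ, Ψ, hΦ, hcomm, hX, hcl⟩ := exists_heckeCorr' D (↑S : Set ℕ)
  refine isOrdinaryAt_of_ordLevelA (algDatumZp D hM hpS hNS H Φ Ψ hΦ hcomm hX) hFD hFO hp2 rfl hres
    fun P hP K => ?_
  obtain ⟨Q, i1, i2, φ, -, -, hQ, hequiv, hT, hN⟩ := hlev P hP K
  refine ⟨Q, i1, i2, φ, hQ, hequiv, ?_, hN⟩
  intro s x hx
  let U : AddSubgroup (Fin D.r → ZMod (p ^ K)) := (φ.comp (ModRep.of D.ρ K).toAddMonoidHom).ker
  have hU : ∀ X ∈ goodT D (↑S : Set ℕ), ∀ x ∈ U,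
      (X.map (Int.castRingHom (ZMod (p ^ K)))).mulVec x ∈ U := by
    rintro _ ⟨ℓ, -, -, -, -, rfl⟩ x hx
    exact hT ℓ x hx
  exact stable_alphaHom Φ (goodT D (↑S : Set ℕ)) hcl K U hU s ((ModRep.of D.ρ K).symm x) hx

end Fermat.Agent.S33.Inst
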