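import Fermat.Agent.S33.Alg.Main
import Fermat.Agent.S33.Alg.Transfer
import Fermat.Agent.S33.Contract

/-!
# S33 / Inst / Defs : instantiation of the abstract theorem `Alg.alg_main` at the finite level `K`

`A : S32.AlgDatum ℤ_[p] T`.  `𝕋 := A.HT = ℤ_p ⊗ C` acts on `W_K := S32.ModRep A.AO K = (ℤ/p^K)^r` through
`alphaHom ℤ_[p] A.Φ` reduced modulo `p^K`.

* `actK A K : A.HT →+* M_r(ℤ/p^K)`, the instance `Module A.HT (ModRep A.AO K)`;
* `rho A K : GQ →* Module.End A.HT (ModRep A.AO K)`;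
* `mI A : Ideal A.HT`, the kernel of `A.HT → T → T/𝔪_T`;
* `eps A : GQ →* A.HT`, `tr hFD A : GQ → A.HT`.
-/

set_option autoImplicit false

namespace Fermat.Agent.S33.Inst

open Fermat.Agent.GAL Fermat.Agent.S32 Fermat.Agent.S33.Alg
open scoped TensorProduct

variable {p : ℕ} [Fact p.Prime] {T : Type} [CommRing T] [IsLocalRing T] [Algebra ℤ_[p] T]
  (A : AlgDatum ℤ_[p] T) (K : ℕ)

/-- The action of the Hecke algebra modulo `p^K`. -/
noncomputable def actK : A.HT →+* Matrix (Fin A.r) (Fin A.r) (ZMod (p ^ K)) :=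
  (PadicInt.toZModPow K).mapMatrix.comp (alphaHom ℤ_[p] A.Φ : A.HT →+* Matrix (Fin A.r) (Fin A.r) ℤ_[p])

theorem actK_apply (s : A.HT) :
    actK A K s = (PadicInt.toZModPow K).mapMatrix (alphaHom ℤ_[p] A.Φ s) := rfl

/-- The action of `G_ℚ` modulo `p^K`. -/
noncomputable def galK : GQ →* Matrix (Fin A.r) (Fin A.r) (ZMod (p ^ K)) :=
  ((PadicInt.toZModPow K).mapMatrix :
    Matrix (Fin A.r) (Fin A.r) ℤ_[p] →+* Matrix (Fin A.r) (Fin A.r) (ZMod (p ^ K))).toMonoidHom.comp A.AO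

theorem galK_apply (g : GQ) : galK A K g = (PadicInt.toZModPow K).mapMatrix (A.AO g) := rfl

theorem actK_comm (s : A.HT) (g : GQ) : actK A K s * galK A K g = galK A K g * actK A K s := by
  rw [actK_apply, galK_apply, ← map_mul, ← map_mul,
    alphaHom_comm A.Φ (A.AO g) (fun c => A.AO_comm c g) s]

noncomputable instance instModuleHT : Module A.HT (ModRep A.AO K) where
  smul s x := ModRep.of A.AO K ((actK A K s).mulVec ((ModRep.of A.AO K).symm x))
  one_smul x := by
    obtain ⟨y, rfl⟩ := (ModRep.of A.AO K).surjective x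
    show ModRep.of A.AO K ((actK A K 1).mulVec y) = ModRep.of A.AO K y
    rw [map_one, Matrix.one_mulVec]
  mul_smul s t x := by
    obtain ⟨y, rfl⟩ := (ModRep.of A.AO K).surjective x
    show ModRep.of A.AO K ((actK A K (s * t)).mulVec y) =
      ModRep.of A.AO K ((actK A K s).mulVec ((actK A K t).mulVec y))
    rw [map_mul, Matrix.mulVec_mulVec]
  smul_zero s := by
    show ModRep.of A.AO K ((actK A K s).mulVec (0 : Fin A.r → ZMod (p ^ K))) = 0
    rw [Matrix.mulVec_zero, map_zero]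
  smul_add s x y := by
    obtain ⟨x, rfl⟩ := (ModRep.of A.AO K).surjective x
    obtain ⟨y, rfl⟩ := (ModRep.of A.AO K).surjective y
    show ModRep.of A.AO K ((actK A K s).mulVec (x + y)) =
      ModRep.of A.AO K ((actK A K s).mulVec x) + ModRep.of A.AO K ((actK A K s).mulVec y)
    rw [Matrix.mulVec_add, map_add]
  add_smul s t x := by
    obtain ⟨y, rfl⟩ := (ModRep.of A.AO K).surjective x
    show ModRep.of A.AO K ((actK A K (s + t)).mulVec y) =
      ModRep.of A.AO K ((actK A K s).mulVec y) + ModRep.of A.AO K ((actK A K t).mulVec y)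
    rw [map_add, Matrix.add_mulVec, map_add]
  zero_smul x := by
    obtain ⟨y, rfl⟩ := (ModRep.of A.AO K).surjective x
    show ModRep.of A.AO K ((actK A K 0).mulVec y) = 0
    rw [map_zero, Matrix.zero_mulVec, map_zero]

theorem smul_of (s : A.HT) (x : Fin A.r → ZMod (p ^ K)) :
    s • ModRep.of A.AO K x = ModRep.of A.AO K ((actK A K s).mulVec x) := rfl

theorem gal_smul_of (g : GQ) (x : Fin A.r → ZMod (p ^ K)) :
    g • ModRep.of A.AO K x = ModRep.of A.AO K ((galK A K g).mulVec x) := rfl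

theorem smul_comm_gal (g : GQ) (s : A.HT) (x : ModRep A.AO K) : g • (s • x) = s • (g • x) := by
  obtain ⟨y, rfl⟩ := (ModRep.of A.AO K).surjective x
  rw [smul_of, gal_smul_of, gal_smul_of, smul_of, Matrix.mulVec_mulVec, Matrix.mulVec_mulVec,
    actK_comm]

/-- The representation of `G_ℚ` on `W_K` by `𝕋`-linear maps. -/
noncomputable def rho : GQ →* Module.End A.HT (ModRep A.AO K) where
  toFun g :=
    { toFun := fun x => g • x
      map_add' := smul_add g
      map_smul' := fun s x => smul_comm_gal A K g s x }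
  map_one' := by
    ext x
    exact one_smul _ x
  map_mul' g h := by
    ext x
    exact mul_smul g h x

@[simp] theorem rho_apply (g : GQ) (x : ModRep A.AO K) : rho A K g x = g • x := rfl

/-- The maximal ideal of the Hecke algebra. -/
noncomputable def mI : Ideal A.HT :=
  RingHom.ker ((IsLocalRing.residue T).comp (piHom ℤ_[p] A.ψ : A.HT →+* T))

theorem mem_mI_iff (s : A.HT) : s ∈ mI A ↔ piHom ℤ_[p] A.ψ s ∈ IsLocalRing.maximalIdeal T := by
  rw [mI, RingHom.mem_ker, RingHom.comp_apply, IsLocalRing.residue_eq_zero_iff]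
  rfl

/-- The cyclotomic character with values in the Hecke algebra. -/
noncomputable def eps : GQ →* A.HT :=
  ((algebraMap ℤ_[p] A.HT : ℤ_[p] →* A.HT).comp (Units.coeHom ℤ_[p])).comp A.ε

theorem eps_apply (g : GQ) : eps A g = algebraMap ℤ_[p] A.HT ((A.ε g : ℤ_[p]ˣ) : ℤ_[p]) := rfl

theorem actK_algebraMap (a : ℤ_[p]) :
    actK A K (algebraMap ℤ_[p] A.HT a) = PadicInt.toZModPow K a • 1 := by
  rw [actK_apply, (alphaHom ℤ_[p] A.Φ).commutes a, Algebra.algebraMap_eq_smul_one]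
  ext i j
  by_cases hij : i = j
  · subst hij; simp
  · simp [hij]

theorem eps_smul (g : GQ) (x : ModRep A.AO K) :
    eps A g • x = ModRep.of A.AO K (PadicInt.toZModPow K ((A.ε g : ℤ_[p]ˣ) : ℤ_[p]) •
      (ModRep.of A.AO K).symm x) := by
  obtain ⟨y, rfl⟩ := (ModRep.of A.AO K).surjective x
  rw [smul_of, eps_apply, actK_algebraMap, Matrix.smul_mulVec, Matrix.one_mulVec,
    AddEquiv.symm_apply_apply]

theorem piHom_eps (g : GQ) :
    piHom ℤ_[p] A.ψ (eps A g) = algebraMap ℤ_[p] T ((A.ε g : ℤ_[p]ˣ) : ℤ_[p]) :=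
  (piHom ℤ_[p] A.ψ).commutes _

section trace

variable [Module.Finite ℤ_[p] T] [IsLocalHom (algebraMap ℤ_[p] T)]

/-- The trace with values in the Hecke algebra. -/
noncomputable def tr (hFD : FrobeniusDensity) (g : GQ) : A.HT := (A.exists_trace_rel hFD g).choose

theorem alphaHom_tr (hFD : FrobeniusDensity) (g : GQ) :
    alphaHom ℤ_[p] A.Φ (tr A hFD g) = A.AO g + ((A.ε g : ℤ_[p]ˣ) : ℤ_[p]) • A.AO g⁻¹ :=
  (A.exists_trace_rel hFD g).choose_spec.1

theorem piHom_tr (hFD : FrobeniusDensity) (g : GQ) :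
    piHom ℤ_[p] A.ψ (tr A hFD g) = LinearMap.trace T A.ρ.V (A.ρ.ρ g) :=
  (A.exists_trace_rel hFD g).choose_spec.2

end trace

/-- **What the algebra needs at the finite level `K`** (abstract version of `S33.OrdLevel`). -/
def OrdLevelA (P : ValuationSubring (AlgebraicClosure ℚ)) : Prop :=
  ∃ (Q : Type) (_ : AddCommGroup Q) (_ : DistribMulAction GQ Q) (φ : ModRep A.AO K →+ Q),
    S19.IsFunFlat p Q ∧ (∀ (σ : GQ) (x : ModRep A.AO K), φ (σ • x) = σ • φ x) ∧
    (∀ (s : A.HT) (x : ModRep A.AO K), φ x = 0 → φ (s • x) = 0) ∧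
    (∀ x : ModRep A.AO K, φ x = 0 →
      x ∈ augG (P.inertiaSubgroupIn ℚ) (⊤ : AddSubgroup (ModRep A.AO K)) →
      ∀ τ ∈ P.inertiaSubgroupIn ℚ, ∀ a : ℕ,
        (∀ μ : AlgebraicClosure ℚ, μ ^ p ^ K = 1 → τ μ = μ ^ a) → τ • x = a • x)

end Fermat.Agent.S33.Inst
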