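import Fermat.Agent.S33.Inst.Defs
import Fermat.Agent.GAL.ALG.Cyclo

/-!
# S33 / Inst / Expo (leaf I8) : the cyclotomic character on `W_K`
-/

set_option autoImplicit false

namespace Fermat.Agent.S33.Inst

open Fermat.Agent.GAL Fermat.Agent.S32 Fermat.Agent.S33.Alg
open scoped TensorProduct

variable {p : ℕ} [Fact p.Prime] {T : Type} [CommRing T] [IsLocalRing T] [Algebra ℤ_[p] T]
  (A : AlgDatum ℤ_[p] T) (K : ℕ)

/-- **I8.**  The cyclotomic character acts on `W_K` through the exponent on `μ_{p^K}`.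
`eps_smul`, `hε`; `a := (toZModPow K (cyclo p τ)).val`, `cyclo_spec p τ K μ hμ`; `(a : ZMod (p^K)) = toZModPow K (cyclo p τ)`
(`ZMod.natCast_zmod_val`, needs `NeZero (p ^ K)`), and `(a : ZMod n) • y = a • y` (`Nat.cast_smul_eq_nsmul`);
`ModRep.of` is additive (`map_nsmul`). -/
theorem exists_exponent (hε : A.ε = cyclo p) (τ : GQ) :
    ∃ a : ℕ, (∀ μ : AlgebraicClosure ℚ, μ ^ p ^ K = 1 → τ μ = μ ^ a) ∧
      ∀ x : ModRep A.AO K, eps A τ • x = a • x := by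
  haveI : NeZero (p ^ K) := ⟨pow_ne_zero _ (Fact.out : p.Prime).ne_zero⟩
  refine ⟨(((cyclo p τ : ℤ_[p]ˣ) : ℤ_[p]).toZModPow K).val, fun μ hμ => cyclo_spec p τ K μ hμ,
    fun x => ?_⟩
  rw [eps_smul, hε]
  conv_lhs => rw [← ZMod.natCast_zmod_val (((cyclo p τ : ℤ_[p]ˣ) : ℤ_[p]).toZModPow K)]
  rw [Nat.cast_smul_eq_nsmul, map_nsmul, AddEquiv.apply_symm_apply]

end Fermat.Agent.S33.Inst
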