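import Fermat.Agent.S33.Inst.Aug

/-!
# S33 / Inst / Geo (leaf I9) : the new part and the hypothesis `FO` of `Alg.Hyp`
-/

set_option autoImplicit false

namespace Fermat.Agent.S33.Inst

open Fermat.Agent.GAL Fermat.Agent.S32 Fermat.Agent.S33.Alg
open scoped TensorProduct

variable {p : ℕ} [Fact p.Prime] {T : Type} [CommRing T] [IsLocalRing T] [Algebra ℤ_[p] T]
  {A : AlgDatum ℤ_[p] T} {K : ℕ}

/-- The new part. -/
def Wnew {Q : Type} [AddCommGroup Q] (φ : ModRep A.AO K →+ Q)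
    (hφ : ∀ (s : A.HT) (x : ModRep A.AO K), φ x = 0 → φ (s • x) = 0) :
    Submodule A.HT (ModRep A.AO K) where
  carrier := {x | φ x = 0}
  add_mem' := by
    intro x y hx hy
    show φ (x + y) = 0
    rw [map_add, show φ x = 0 from hx, show φ y = 0 from hy, add_zero]
  zero_mem' := map_zero φ
  smul_mem' := fun s x hx => hφ s x hx

theorem mem_Wnew {Q : Type} [AddCommGroup Q] (φ : ModRep A.AO K →+ Q)
    (hφ : ∀ (s : A.HT) (x : ModRep A.AO K), φ x = 0 → φ (s • x) = 0) (x : ModRep A.AO K) :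
    x ∈ Wnew φ hφ ↔ φ x = 0 := Iff.rfl

/-- `φ ((I - 1) B) = (I - 1) φ(B)` for an equivariant map `φ`. -/
theorem Geo_map_augG {X Q : Type} [AddCommGroup X] [DistribMulAction GQ X] [AddCommGroup Q]
    [DistribMulAction GQ Q] (φ : X →+ Q) (hequiv : ∀ (σ : GQ) (x : X), φ (σ • x) = σ • φ x)
    (I : Subgroup GQ) (B : AddSubgroup X) : (augG I B).map φ = augG I (B.map φ) := by
  rw [augG, augG, AddMonoidHom.map_closure]
  congr 1
  ext y
  constructor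
  · rintro ⟨_, ⟨τ, hτ, x, hx, rfl⟩, rfl⟩
    exact ⟨τ, hτ, φ x, ⟨x, hx, rfl⟩, by rw [map_sub, hequiv]⟩
  · rintro ⟨τ, hτ, _, ⟨x, hx, rfl⟩, rfl⟩
    exact ⟨τ • x - x, ⟨τ, hτ, x, hx, rfl⟩, by rw [map_sub, hequiv]⟩

theorem Geo_augG_mono {X : Type} [AddCommGroup X] [DistribMulAction GQ X] (I : Subgroup GQ)
    {B B' : AddSubgroup X} (h : B ≤ B') : augG I B ≤ augG I B' := by
  apply AddSubgroup.closure_mono
  rintro _ ⟨τ, hτ, x, hx, rfl⟩
  exact ⟨τ, hτ, x, h hx, rfl⟩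

/-- **I9.**  PROOF.  `I := P.inertiaSubgroupIn ℚ`, `C' := C.toAddSubgroup.map φ`.
(a) `C'` is `I`-stable (`hequiv`, `hC`).
(b) general fact: `(augG I B).map φ = augG I (B.map φ)` for every subgroup `B` (`AddMonoidHom.map_closure`, image of the
generators by `hequiv`, `map_sub`); in particular `(augG I ⊤).map φ ≤ augG I ⊤`.
(c) `C' ≤ augG I ⊤`: `x ∈ C` is `y + n`, `y ∈ aug .. ⊤` (`Submodule.mem_sup`, `mem_aug_iff`), `φ n = 0`, so `φ x = φ y`.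
(d) `hFO p hp2 Q hQ P hP C' (a) (c) : C' ≤ augG I C' = (augG I C).map φ`: for `x ∈ C` there is `y ∈ augG I C` with
`φ y = φ x`; `x = y + (x - y)`, `y ∈ aug .. C` (`mem_aug_iff`), `x - y ∈ Wnew`. -/
theorem hyp_FO (hFO : FOStatement) (hp2 : p ≠ 2) (P : ValuationSubring (AlgebraicClosure ℚ))
    (hP : P.LiesOverPrime p) {Q : Type} [AddCommGroup Q] [DistribMulAction GQ Q]
    (hQ : S19.IsFunFlat p Q) (φ : ModRep A.AO K →+ Q)
    (hequiv : ∀ (σ : GQ) (x : ModRep A.AO K), φ (σ • x) = σ • φ x)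
    (hφ : ∀ (s : A.HT) (x : ModRep A.AO K), φ x = 0 → φ (s • x) = 0)
    (C : Submodule A.HT (ModRep A.AO K)) (hC : Stable (rho A K) (P.inertiaSubgroupIn ℚ) C)
    (hCle : C ≤ aug (rho A K) (P.inertiaSubgroupIn ℚ) ⊤ ⊔ Wnew φ hφ) :
    C ≤ aug (rho A K) (P.inertiaSubgroupIn ℚ) C ⊔ Wnew φ hφ := by
  set I := P.inertiaSubgroupIn ℚ with hI
  have ha : ∀ τ ∈ I, ∀ x ∈ C.toAddSubgroup.map φ, τ • x ∈ C.toAddSubgroup.map φ := by
    rintro τ hτ _ ⟨x, hx, rfl⟩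
    exact ⟨τ • x, hC τ hτ x hx, hequiv τ x⟩
  have hc : C.toAddSubgroup.map φ ≤ augG I ⊤ := by
    rintro _ ⟨x, hx, rfl⟩
    obtain ⟨y, hy, n, hn, rfl⟩ := Submodule.mem_sup.mp (hCle hx)
    rw [mem_aug_iff] at hy
    have hn0 : φ n = 0 := hn
    rw [map_add, hn0, add_zero]
    have h1 : φ y ∈ (augG I (⊤ : Submodule A.HT (ModRep A.AO K)).toAddSubgroup).map φ :=
      ⟨y, hy, rfl⟩
    rw [Geo_map_augG φ hequiv] at h1
    exact Geo_augG_mono I le_top h1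
  have hd := hFO p hp2 Q hQ P hP (C.toAddSubgroup.map φ) ha hc
  rw [← Geo_map_augG φ hequiv] at hd
  intro x hx
  obtain ⟨y, hy, hyx⟩ := hd ⟨x, hx, rfl⟩
  have hy' : y ∈ aug (rho A K) I C := (mem_aug_iff A K I C y).mpr hy
  have hn : x - y ∈ Wnew φ hφ := by
    rw [mem_Wnew, map_sub, hyx, sub_self]
  have : x = y + (x - y) := by abel
  rw [this]
  exact Submodule.add_mem_sup hy' hn

end Fermat.Agent.S33.Inst
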