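import Fermat.Agent.S33.FO.Zeta
import Fermat.Agent.GAL.ALG.Cyclo

/-!
# S33 / Inst / Tau0 (leaf I5) : an element of inertia at `p` on which the cyclotomic character is not `1` modulo `p`
-/

set_option autoImplicit false

namespace Fermat.Agent.S33.Inst

open Fermat.Agent.GAL

variable {p : ℕ} [Fact p.Prime]

/-- Take a primitive `p`-th root of unity `ζ` of `ℚ̄` (`HasEnoughRootsOfUnity.exists_primitiveRoot` or
`IsAlgClosed.exists_pow_nat_eq`-style; `(p : ℚ̄) ≠ 0`) and `τ0` from `FO.exists_moves`.  If `cyclo p τ0 - 1` is not a unit it lies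
in `maximalIdeal ℤ_[p] = span {p}` (`PadicInt.maximalIdeal_eq_span_p`), i.e. in `ker (toZModPow 1)`
(`PadicInt.ker_toZModPow`, `pow_one`), so `toZModPow 1 (cyclo p τ0) = 1`, whose `val` is `1` (`ZMod.val_one''` or
`Fact (1 < p ^ 1)`), and `cyclo_spec p τ0 1 ζ` gives `τ0 ζ = ζ ^ 1`: contradiction. -/
theorem exists_tau0 (hp2 : p ≠ 2) (P : ValuationSubring (AlgebraicClosure ℚ)) (hP : P.LiesOverPrime p) :
    ∃ τ0 ∈ P.inertiaSubgroupIn ℚ, IsUnit (((cyclo p τ0 : ℤ_[p]ˣ) : ℤ_[p]) - 1) := by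
  have hp : p.Prime := Fact.out
  haveI : NeZero (p : AlgebraicClosure ℚ) := ⟨by exact_mod_cast hp.ne_zero⟩
  obtain ⟨ζ, hζ⟩ := HasEnoughRootsOfUnity.exists_primitiveRoot (AlgebraicClosure ℚ) p
  obtain ⟨τ0, hτ0, hmove⟩ := FO.exists_moves hp P hP hp2 hζ
  refine ⟨τ0, hτ0, ?_⟩
  by_contra hnu
  have h1 : ((cyclo p τ0 : ℤ_[p]ˣ) : ℤ_[p]) - 1 ∈ IsLocalRing.maximalIdeal ℤ_[p] :=
    (IsLocalRing.mem_maximalIdeal _).mpr hnu
  have hker : IsLocalRing.maximalIdeal ℤ_[p] = RingHom.ker (PadicInt.toZModPow (p := p) 1) := by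
    rw [PadicInt.ker_toZModPow, pow_one, PadicInt.maximalIdeal_eq_span_p]
  rw [hker, RingHom.mem_ker, map_sub, map_one, sub_eq_zero] at h1
  have h2 := cyclo_spec p τ0 1 ζ (by rw [pow_one]; exact hζ.pow_eq_one)
  rw [h1] at h2
  have h3 : (1 : ZMod (p ^ 1)).val = 1 := by
    haveI : Fact (1 < p ^ 1) := ⟨by rw [pow_one]; exact hp.one_lt⟩
    exact ZMod.val_one _
  rw [h3, pow_one] at h2
  exact hmove h2

end Fermat.Agent.S33.Inst
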