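import Fermat.Agent.S33.Inst.Max
import Fermat.Agent.S33.Inst.CH
import Fermat.Agent.S33.Inst.OrdRes
import Fermat.Agent.S33.Inst.Tau0
import Fermat.Agent.S33.Inst.NE
import Fermat.Agent.S33.Inst.Expo
import Fermat.Agent.S33.Inst.Geo

/-!
# S33 / Inst / Main : ordinarity at `p` of the representation of an `AlgDatum ℤ_[p] T` from the finite levels
-/

set_option autoImplicit false

namespace Fermat.Agent.S33.Inst

open Fermat.Agent.GAL Fermat.Agent.S32 Fermat.Agent.S33.Alg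
open scoped TensorProduct

variable {p : ℕ} [Fact p.Prime] {T : Type} [CommRing T] [IsLocalRing T] [Algebra ℤ_[p] T]
  [Module.Finite ℤ_[p] T] [IsLocalHom (algebraMap ℤ_[p] T)] (A : AlgDatum ℤ_[p] T)

/-- The hypotheses of the abstract theorem at the level `K`. -/
theorem hyp_of_ordLevelA (hFD : FrobeniusDensity) (hFO : FOStatement) (hp2 : p ≠ 2)
    (hε : A.ε = cyclo p) (P : ValuationSubring (AlgebraicClosure ℚ)) (hP : P.LiesOverPrime p)
    (hres : (GaloisRepAdic.ofResidualGaloisRep A.ρ.residual).IsOrdinaryAt p) (K : ℕ)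
    (h : OrdLevelA A K P) (τ0 : GQ) (hτ0 : τ0 ∈ P.inertiaSubgroupIn ℚ)
    (hu : IsUnit (((cyclo p τ0 : ℤ_[p]ˣ) : ℤ_[p]) - 1)) :
    ∃ Wn : Submodule A.HT (ModRep A.AO K),
      Hyp (mI A) (rho A K) (P.inertiaSubgroupIn ℚ) (eps A) (tr A hFD) τ0 Wn := by
  obtain ⟨Q, _, _, φ, hQ, hequiv, hφ, hN⟩ := h
  refine ⟨Wnew φ hφ,
    { CH := hyp_CH A K hFD
      ord := fun τ hτ => hyp_ord A hFD P hP hres τ hτ
      mem0 := hτ0
      ne0 := ?_
      nE := hyp_nE A hFD
      new := ?_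
      N := ?_
      FO := fun C hC hCle => hyp_FO hFO hp2 P hP hQ φ hequiv hφ C hC hCle }⟩
  · rw [mem_mI_iff, map_sub, map_one, piHom_eps, hε, ← map_one (algebraMap ℤ_[p] T), ← map_sub]
    intro hmem
    exact (IsLocalRing.mem_maximalIdeal _).1 hmem (hu.map _)
  · intro g _ x hx
    rw [mem_Wnew] at hx ⊢
    rw [rho_apply, hequiv, hx, smul_zero]
  · intro x hx hxa τ hτ
    obtain ⟨a, ha, hax⟩ := exists_exponent A K hε τ
    rw [rho_apply, hax]
    refine hN x hx ?_ τ hτ a ha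
    have := (mem_aug_iff A K _ _ x).1 hxa
    rwa [Submodule.top_toAddSubgroup] at this

/-- **INST, generic form.** -/
theorem isOrdinaryAt_of_ordLevelA [Finite (IsLocalRing.ResidueField T)] (hFD : FrobeniusDensity)
    (hFO : FOStatement) (hp2 : p ≠ 2) (hε : A.ε = cyclo p)
    (hres : (GaloisRepAdic.ofResidualGaloisRep A.ρ.residual).IsOrdinaryAt p)
    (h : ∀ P : ValuationSubring (AlgebraicClosure ℚ), P.LiesOverPrime p → ∀ K : ℕ, OrdLevelA A K P) :
    A.ρ.IsOrdinaryAt p := by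
  intro P hP
  obtain ⟨τ0, hτ0, hu⟩ := exists_tau0 hp2 P hP
  have hmax := mI_isMaximal A
  refine exists_line_Zp hFD A P τ0 hτ0 ?_ fun τ hτ K => ?_
  · rw [hε, ← map_one (algebraMap ℤ_[p] T), ← map_sub]
    exact hu.map _
  · obtain ⟨Wn, H⟩ := hyp_of_ordLevelA A hFD hFO hp2 hε P hP hres K (h P hP K) τ0 hτ0 hu
    obtain ⟨e, he, hrel⟩ := alg_main H
    refine ⟨e, fun hmem => he ((mem_mI_iff A e).2 hmem), fun x => ?_⟩
    have h1 := hrel τ0 hτ0 (rho A K τ (ModRep.of A.AO K x) - ModRep.of A.AO K x)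
      (sub_mem_aug _ hτ Submodule.mem_top)
    rw [rho_apply, rho_apply, gal_smul_of, ← map_sub, gal_smul_of, eps_smul, AddEquiv.symm_apply_apply,
      ← map_sub, smul_of] at h1
    exact (ModRep.of A.AO K).injective (h1.trans (map_zero _).symm)

end Fermat.Agent.S33.Inst
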