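import Fermat.Agent.S33.Inst.Defs

/-!
# S33 / Inst / Max (leaf I2) : `mI A` is a maximal ideal
-/

set_option autoImplicit false

namespace Fermat.Agent.S33.Inst

open Fermat.Agent.GAL Fermat.Agent.S32 Fermat.Agent.S33.Alg
open scoped TensorProduct

variable {p : ℕ} [Fact p.Prime] {T : Type} [CommRing T] [IsLocalRing T] [Algebra ℤ_[p] T]
  (A : AlgDatum ℤ_[p] T)

/-- `A.HT ⧸ mI A` embeds in the finite field `ResidueField T` (`RingHom.kerLift_injective`), so it is a finite domain, hence a
field (`Finite.isField_of_domain`, `Ideal.Quotient.maximal_of_isField`; `Finite.of_injective`,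
`Function.Injective.isDomain`). -/
theorem mI_isMaximal [Finite (IsLocalRing.ResidueField T)] : (mI A).IsMaximal := by
  have hinj : Function.Injective
      (RingHom.kerLift ((IsLocalRing.residue T).comp (piHom ℤ_[p] A.ψ : A.HT →+* T))) :=
    RingHom.kerLift_injective _
  have hfin : Finite (A.HT ⧸ mI A) := Finite.of_injective _ hinj
  have hdom : IsDomain (A.HT ⧸ mI A) := hinj.isDomain _
  have hfield : IsField (A.HT ⧸ mI A) := Finite.isField_of_domain (A.HT ⧸ mI A)
  exact Ideal.Quotient.maximal_of_isField _ hfield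

/-- The embedding `A.HT ⧸ mI A → ResidueField T`. -/
noncomputable def jHom : A.HT ⧸ mI A →+* IsLocalRing.ResidueField T :=
  RingHom.kerLift ((IsLocalRing.residue T).comp (piHom ℤ_[p] A.ψ : A.HT →+* T))

theorem jHom_mk (s : A.HT) :
    jHom A (Ideal.Quotient.mk (mI A) s) = IsLocalRing.residue T (piHom ℤ_[p] A.ψ s) := rfl

theorem jHom_injective : Function.Injective (jHom A) :=
  RingHom.kerLift_injective _

end Fermat.Agent.S33.Inst
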